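import Fermat.Agent.MUL.Orig.S30.WilesIdentities
import Fermat.Agent.MUL.Orig.S30.WilesSat
import Fermat.Agent.MUL.Orig.Lib.Cyclo.ModChar

section MergeWrap_S30_WilesLine -- from S30/WilesLine.lean

set_option autoImplicit false

/-!
# S30 p-adic core, part 3: the conclusion `RepConclusion`, and the case of a stable line

If a primitive vector `u` spans a `G`-stable line, `G` acts on it through a character `ψ` and
`ψ ⊕ ε ψ⁻¹` on `R × R` has characteristic polynomials `X² - t(g) X + ε(g)`.
-/

namespace Fermat.Agent.S30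

open Module Polynomial IsLocalRing

section Concl

variable {R : Type} [CommRing R] [IsLocalRing R] {G : Type*} [Group G]
  {Λ : Type} [AddCommGroup Λ] [Module R Λ]

/-- The output of the Wiles algebra: a free module of rank two with an action of `G` whose
characteristic polynomials are `X² - t(g) X + ε(g)`, and which is as continuous / as unramified
as `ρ` and `ε` are. -/
def RepConclusion (ρ : G →* Module.End R Λ) (ε : G →* Rˣ) (t : G → R) : Prop :=
  ∃ (V : Type) (_ : AddCommGroup V) (_ : Module R V) (_ : Module.Free R V)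
    (_ : Module.Finite R V) (ρ' : G →* Module.End R V),
    Module.finrank R V = 2 ∧
    (∀ g : G, LinearMap.charpoly (ρ' g) = X ^ 2 - C (t g) * X + C ((ε g : Rˣ) : R)) ∧
    (∀ (n : ℕ) (g : G),
      (∀ x : Λ, ρ g x - x ∈ (maximalIdeal R ^ n) • (⊤ : Submodule R Λ)) →
      (((ε g : Rˣ) : R) - 1 ∈ maximalIdeal R ^ n) →
      ∀ y : V, ρ' g y - y ∈ (maximalIdeal R ^ n) • (⊤ : Submodule R V)) ∧
    (∀ g : G, ρ g = 1 → ε g = 1 → ρ' g = 1)

end Concl

section Diag

variable {R : Type*} [CommRing R]

/-- The characteristic polynomial of a scalar endomorphism of `R`. -/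
theorem charpoly_smul_one_self (a : R) :
    LinearMap.charpoly (a • (1 : Module.End R R)) = X - C a := by
  classical
  rw [← LinearMap.charpoly_toMatrix _ (Module.Basis.singleton (Fin 1) R)]
  have : LinearMap.toMatrix (Module.Basis.singleton (Fin 1) R) (Module.Basis.singleton (Fin 1) R)
      (a • (1 : Module.End R R)) = Matrix.diagonal fun _ => a := by
    rw [map_smul, LinearMap.toMatrix_one]
    ext i j
    by_cases hij : i = j
    · subst hij; simp
    · simp [hij]
  rw [this, Matrix.charpoly_diagonal, Finset.prod_const, Finset.card_univ, Fintype.card_fin,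
    pow_one]

variable {G : Type*} [Group G]

/-- The representation `χ₁ ⊕ χ₂` on `R × R`. -/
def diagRepR (χ₁ χ₂ : G →* R) : G →* Module.End R (R × R) where
  toFun g := LinearMap.prodMap (χ₁ g • (1 : Module.End R R)) (χ₂ g • (1 : Module.End R R))
  map_one' := by
    ext <;> simp
  map_mul' g h := by
    have e1 : χ₁ (g * h) • (1 : Module.End R R) =
        (χ₁ g • (1 : Module.End R R)) * (χ₁ h • (1 : Module.End R R)) := by
      rw [smul_mul_smul_comm, one_mul, map_mul]
    have e2 : χ₂ (g * h) • (1 : Module.End R R) =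
        (χ₂ g • (1 : Module.End R R)) * (χ₂ h • (1 : Module.End R R)) := by
      rw [smul_mul_smul_comm, one_mul, map_mul]
    rw [e1, e2]
    exact (LinearMap.prodMap_mul _ _ _ _).symm

theorem diagRepR_def (χ₁ χ₂ : G →* R) (g : G) :
    diagRepR χ₁ χ₂ g =
      LinearMap.prodMap (χ₁ g • (1 : Module.End R R)) (χ₂ g • (1 : Module.End R R)) := rfl

theorem diagRepR_apply (χ₁ χ₂ : G →* R) (g : G) (y : R × R) :
    diagRepR χ₁ χ₂ g y = (χ₁ g * y.1, χ₂ g * y.2) := by
  rw [diagRepR_def]
  simp

theorem charpoly_diagRepR (χ₁ χ₂ : G →* R) (g : G) :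
    LinearMap.charpoly (diagRepR χ₁ χ₂ g) = (X - C (χ₁ g)) * (X - C (χ₂ g)) := by
  rw [diagRepR_def, LinearMap.charpoly_prodMap, charpoly_smul_one_self, charpoly_smul_one_self]

theorem diagRepR_eq_one (χ₁ χ₂ : G →* R) (g : G) (h1 : χ₁ g = 1) (h2 : χ₂ g = 1) :
    diagRepR χ₁ χ₂ g = 1 := by
  rw [diagRepR_def, h1, h2]
  ext <;> simp

end Diag

section Line

variable {R : Type} [CommRing R] [IsDomain R] [IsDiscreteValuationRing R]
  {G : Type*} [Group G]
  {Λ : Type} [AddCommGroup Λ] [Module R Λ] [Module.IsTorsionFree R Λ]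

/-- **Line case.** -/
theorem repConclusion_of_line (ρ : G →* Module.End R Λ) (ε : G →* Rˣ) (t : G → R)
    (hQ : QuadRel ρ ε t) (u : Λ) (hu : IsPrimVec R u) (hu0 : u ≠ 0)
    (hstab : ∀ g : G, ρ g u ∈ Submodule.span R {u}) :
    RepConclusion ρ ε t := by
  classical
  have hinj : Function.Injective fun a : R => a • u := smul_left_injective R hu0
  have hex : ∀ g : G, ∃ a : R, a • u = ρ g u := fun g =>
    Submodule.mem_span_singleton.mp (hstab g)
  choose ψ hψ using hex
  have hψmul : ∀ g h : G, ψ (g * h) = ψ g * ψ h := by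
    intro g h
    apply hinj
    show ψ (g * h) • u = (ψ g * ψ h) • u
    rw [hψ, map_mul, Module.End.mul_apply, ← hψ h, map_smul, ← hψ g, smul_smul, mul_comm]
  have hψone : ψ 1 = 1 := by
    apply hinj
    show ψ 1 • u = (1 : R) • u
    rw [hψ, map_one, Module.End.one_apply, one_smul]
  have hψinv : ∀ g : G, ψ g * ψ g⁻¹ = 1 := by
    intro g
    rw [← hψmul, mul_inv_cancel, hψone]
  have hψquad : ∀ g : G, ψ g * ψ g - t g * ψ g + ((ε g : Rˣ) : R) = 0 := by
    intro g
    apply hinj
    show (ψ g * ψ g - t g * ψ g + ((ε g : Rˣ) : R)) • u = (0 : R) • u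
    have h := hQ.apply g u
    rw [← hψ g, map_smul, ← hψ g] at h
    rw [zero_smul, ← h]
    module
  have hψtr : ∀ g : G, ψ g + ((ε g : Rˣ) : R) * ψ g⁻¹ = t g := by
    intro g
    have h := hψquad g
    have h1 : (ψ g * ψ g - t g * ψ g + ((ε g : Rˣ) : R)) * ψ g⁻¹ = 0 := by
      rw [h, zero_mul]
    have h2 := hψinv g
    linear_combination h1 - (ψ g - t g) * h2
  let χ₁ : G →* R := { toFun := ψ, map_one' := hψone, map_mul' := hψmul }
  let χ₂ : G →* R :=
    { toFun := fun g => ((ε g : Rˣ) : R) * ψ g⁻¹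
      map_one' := by simp [hψone]
      map_mul' := fun g h => by
        rw [mul_inv_rev, hψmul, map_mul, Units.val_mul]; ring }
  have hχ₁ : ∀ g, χ₁ g = ψ g := fun _ => rfl
  have hχ₂ : ∀ g, χ₂ g = ((ε g : Rˣ) : R) * ψ g⁻¹ := fun _ => rfl
  obtain ⟨ϖ, hϖ⟩ := IsDiscreteValuationRing.exists_irreducible R
  refine ⟨R × R, inferInstance, inferInstance, inferInstance, inferInstance, diagRepR χ₁ χ₂,
    ?_, ?_, ?_, ?_⟩
  · rw [Module.finrank_prod, Module.finrank_self]
  · intro g
    rw [charpoly_diagRepR, hχ₁, hχ₂]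
    have h2 := hψinv g
    have e3 : ψ g * (((ε g : Rˣ) : R) * ψ g⁻¹) = ((ε g : Rˣ) : R) := by
      linear_combination ((ε g : Rˣ) : R) * h2
    calc (X - C (ψ g)) * (X - C (((ε g : Rˣ) : R) * ψ g⁻¹))
        = X ^ 2 - C (ψ g + ((ε g : Rˣ) : R) * ψ g⁻¹) * X
            + C (ψ g * (((ε g : Rˣ) : R) * ψ g⁻¹)) := by
          simp only [map_add, map_mul]; ring
      _ = X ^ 2 - C (t g) * X + C ((ε g : Rˣ) : R) := by rw [hψtr, e3]
  · intro n g hg hεg y
    -- `ψ g - 1 ∈ 𝔪 ^ n`
    have h1 : ψ g - 1 ∈ maximalIdeal R ^ n := by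
      have hx := hg u
      rw [← hψ g] at hx
      obtain ⟨z, hz⟩ := (mem_maximalIdeal_pow_smul_top hϖ n _).mp hx
      rw [hϖ.maximalIdeal_eq, Ideal.span_singleton_pow, Ideal.mem_span_singleton]
      have hz' : (ψ g - 1) • u = ϖ ^ n • z := by
        rw [sub_smul, one_smul]; exact hz
      rcases ValuationRing.dvd_total (ϖ ^ n) (ψ g - 1) with h | ⟨b, hb⟩
      · exact h
      · by_cases h0 : ψ g - 1 = 0
        · rw [h0]; exact dvd_zero _
        · have h3 : (ψ g - 1) • (u - b • z) = 0 := by
            rw [smul_sub, hz', hb, mul_smul]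
            exact sub_self _
          rcases smul_eq_zero.mp h3 with h | h
          · exact absurd h h0
          · rw [sub_eq_zero] at h
            obtain ⟨b', rfl⟩ := hu b z h.symm
            refine ⟨((b'⁻¹ : Rˣ) : R), ?_⟩
            rw [hb, mul_assoc, Units.mul_inv, mul_one]
    have h2 : ((ε g : Rˣ) : R) * ψ g⁻¹ - 1 ∈ maximalIdeal R ^ n := by
      have e : ((ε g : Rˣ) : R) * ψ g⁻¹ - 1 =
          ψ g⁻¹ * ((((ε g : Rˣ) : R) - 1) - (ψ g - 1)) := by
        linear_combination hψinv g
      rw [e]
      exact Ideal.mul_mem_left _ _ (Ideal.sub_mem _ hεg h1)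
    have e : diagRepR χ₁ χ₂ g y - y =
        (ψ g - 1) • ((y.1, 0) : R × R) + (((ε g : Rˣ) : R) * ψ g⁻¹ - 1) • ((0, y.2) : R × R) := by
      rw [diagRepR_apply, hχ₁, hχ₂]
      ext
      · simp; ring
      · simp; ring
    rw [e]
    exact Submodule.add_mem _ (Submodule.smul_mem_smul h1 Submodule.mem_top)
      (Submodule.smul_mem_smul h2 Submodule.mem_top)
  · intro g hg hεg
    have h1 : ψ g = 1 := by
      apply hinj
      show ψ g • u = (1 : R) • u
      rw [hψ, hg, Module.End.one_apply, one_smul]
    have h2 : ψ g⁻¹ = 1 := by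
      have := hψinv g
      rwa [h1, one_mul] at this
    apply diagRepR_eq_one
    · rw [hχ₁, h1]
    · rw [hχ₂, h2, hεg, Units.val_one, one_mul]

end Line

end Fermat.Agent.S30
end MergeWrap_S30_WilesLine

section MergeWrap_S30_WilesPlane -- from S30/WilesPlane.lean

set_option autoImplicit false

/-!
# S30 p-adic core, part 4: the case of a stable plane

`M ⊂ Λ` saturated and `G`-stable, containing eigenvectors `u`, `w` of the involution `ρ(c)` for
the eigenvalues `s`, `-s`, and such that the `±s`-eigenspaces of `ρ(c)` in `M` are the lines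
through `u`, `w`.  Then `M` is free of rank two and the characteristic polynomial of `ρ(g)` on
`M` is `X² - t(g) X + ε(g)`.
-/

namespace Fermat.Agent.S30

open Module Polynomial IsLocalRing

section Restrict

variable {R : Type*} [CommRing R] {G : Type*} [Group G]
  {Λ : Type*} [AddCommGroup Λ] [Module R Λ]

/-- Restriction of a representation to a stable submodule. -/
def restrictRepR (ρ : G →* Module.End R Λ) (M : Submodule R Λ)
    (hM : ∀ (g : G) (x : Λ), x ∈ M → ρ g x ∈ M) : G →* Module.End R M where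
  toFun g := (ρ g).restrict (hM g)
  map_one' := by
    ext x
    simp
  map_mul' g h := by
    ext x
    simp

@[simp]
theorem restrictRepR_apply_coe (ρ : G →* Module.End R Λ) (M : Submodule R Λ)
    (hM : ∀ (g : G) (x : Λ), x ∈ M → ρ g x ∈ M) (g : G) (x : M) :
    ((restrictRepR ρ M hM g x : M) : Λ) = ρ g (x : Λ) := rfl

theorem quadRel_restrict {ρ : G →* Module.End R Λ} {ε : G →* Rˣ} {t : G → R}
    (hQ : QuadRel ρ ε t) (M : Submodule R Λ)
    (hM : ∀ (g : G) (x : Λ), x ∈ M → ρ g x ∈ M) : QuadRel (restrictRepR ρ M hM) ε t := by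
  intro g
  ext x
  have := hQ.apply g (x : Λ)
  simpa using this

end Restrict

section Plane

variable {R : Type} [CommRing R] [IsDomain R] [IsDiscreteValuationRing R] [CharZero R]
  {G : Type*} [Group G]
  {Λ : Type} [AddCommGroup Λ] [Module R Λ] [Module.Free R Λ] [Module.Finite R Λ]

omit [CharZero R] [Module.Free R Λ] [Module.Finite R Λ] in
/-- The characteristic polynomial of an endomorphism of a free module of rank two which is
killed by `X² - a X + b`, given two "half-trace" relations. -/
theorem charpoly_eq_of_quad {M : Type} [AddCommGroup M] [Module R M] [Module.Free R M]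
    [Module.Finite R M] [Nontrivial M] (hfin : Module.finrank R M = 2) (T : Module.End R M)
    (a b : R) (hT : T * T - a • T + b • (1 : Module.End R M) = 0)
    (hscal : ∀ r σ : R, r • T = σ • (1 : Module.End R M) → r * a = 2 * σ)
    (h2 : (2 : R) ≠ 0) :
    LinearMap.charpoly T = X ^ 2 - C a * X + C b := by
  classical
  let bas : Basis (Fin 2) R M := Module.finBasisOfFinrankEq R M hfin
  set A := LinearMap.toMatrix bas bas T with hA
  have hch : LinearMap.charpoly T = X ^ 2 - C A.trace * X + C A.det := by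
    rw [← LinearMap.charpoly_toMatrix T bas, Matrix.charpoly_fin_two]
  have hCH := LinearMap.aeval_self_charpoly T
  rw [hch] at hCH
  simp only [map_add, map_sub, map_mul, map_pow, aeval_X, aeval_C,
    Algebra.algebraMap_eq_smul_one] at hCH
  -- hCH : T ^ 2 - (A.trace • 1) * T + A.det • 1 = 0
  have hCH' : T * T - A.trace • T + A.det • (1 : Module.End R M) = 0 := by
    rw [← hCH, pow_two, smul_mul_assoc, one_mul]
  have hdiff : (A.trace - a) • T = (A.det - b) • (1 : Module.End R M) := by
    have : (A.trace - a) • T - (A.det - b) • (1 : Module.End R M) =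
        (T * T - a • T + b • (1 : Module.End R M))
          - (T * T - A.trace • T + A.det • (1 : Module.End R M)) := by
      rw [sub_smul, sub_smul]; abel
    rw [hT, hCH', sub_zero] at this
    exact sub_eq_zero.mp this
  have htr : (A.trace - a) * A.trace = 2 * (A.det - b) := by
    have h := congrArg (LinearMap.trace R M) hdiff
    rw [map_smul, map_smul, LinearMap.trace_one, hfin, LinearMap.trace_eq_matrix_trace R bas T,
      smul_eq_mul, smul_eq_mul] at h
    rw [h]; push_cast; ring
  have hsc := hscal _ _ hdiff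
  -- (tr - a) * a = 2 (det - b) = (tr - a) * tr
  have hr : (A.trace - a) * (A.trace - a) = 0 := by
    linear_combination htr - hsc
  have hr0 : A.trace - a = 0 := by
    rcases mul_eq_zero.mp hr with h | h <;> exact h
  have hσ : A.det - b = 0 := by
    have : (2 : R) * (A.det - b) = 0 := by rw [← hsc, hr0, zero_mul]
    rcases mul_eq_zero.mp this with h | h
    · exact absurd h h2
    · exact h
  rw [hch, sub_eq_zero.mp hr0, sub_eq_zero.mp hσ]

/-- **Plane case.** -/
theorem repConclusion_of_plane (ρ : G →* Module.End R Λ) (ε : G →* Rˣ) (t : G → R)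
    (hQ : QuadRel ρ ε t) (c : G) (hc : c * c = 1) (htc : t c = 0)
    (s : R) (hs : s * s = 1)
    (M : Submodule R Λ) (hMsat : IsSatSub M) (hMstab : ∀ (g : G) (x : Λ), x ∈ M → ρ g x ∈ M)
    (u w : Λ) (huM : u ∈ M) (hwM : w ∈ M) (hu0 : u ≠ 0) (hw0 : w ≠ 0)
    (hcu : ρ c u = s • u) (hcw : ρ c w = (-s) • w)
    (hplus : ∀ x ∈ M, ρ c x = s • x → x ∈ Submodule.span R {u})
    (hminus : ∀ x ∈ M, ρ c x = (-s) • x → x ∈ Submodule.span R {w}) :
    RepConclusion ρ ε t := by
  classical
  have h2R : (2 : R) ≠ 0 := two_ne_zero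
  have h2 : ∀ y : Λ, (2 : R) • y = 0 → y = 0 := fun y hy =>
    (smul_eq_zero.mp hy).resolve_left h2R
  have hs' : (-s) * (-s) = 1 := by rw [neg_mul_neg, hs]
  -- finrank M = 2
  have hli : LinearIndependent R ![(⟨u, huM⟩ : M), ⟨w, hwM⟩] := by
    rw [LinearIndependent.pair_iff]
    intro a b hab
    have hab' : a • u + b • w = 0 := by
      have := congrArg (Subtype.val) hab
      simpa using this
    have h1 : a • u - b • w = 0 := by
      have := congrArg (fun y => s • ρ c y) hab'
      simp only [map_add, map_smul, hcu, hcw, smul_zero, map_zero] at this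
      rw [← this]
      simp only [smul_add, smul_smul]
      have e1 : s * (a * s) = a := by linear_combination a * hs
      have e2 : s * (b * -s) = -b := by linear_combination -b * hs
      rw [e1, e2, neg_smul, sub_eq_add_neg]
    have ha : (2 : R) • (a • u) = 0 := by
      have : (2 : R) • (a • u) = (a • u + b • w) + (a • u - b • w) := by
        rw [two_smul]; abel
      rw [this, hab', h1, add_zero]
    have ha0 : a = 0 := (smul_eq_zero.mp (h2 _ ha)).resolve_right hu0
    refine ⟨ha0, ?_⟩
    rw [ha0, zero_smul, zero_add] at hab'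
    exact (smul_eq_zero.mp hab').resolve_right hw0
  have hge : 2 ≤ Module.finrank R M := by
    have := hli.fintype_card_le_finrank
    simpa using this
  have hmem2 : ∀ x ∈ M, (2 : R) • x ∈ Submodule.span R ((({u, w} : Finset Λ)) : Set Λ) := by
    intro x hx
    have hcx : ρ c x ∈ M := hMstab c x hx
    have hp : x + s • ρ c x ∈ Submodule.span R {u} := by
      apply hplus _ (M.add_mem hx (M.smul_mem s hcx))
      rw [map_add, map_smul, rho_invol_apply ρ hc, smul_add, smul_smul, hs, one_smul, add_comm]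
    have hm : x + (-s) • ρ c x ∈ Submodule.span R {w} := by
      apply hminus _ (M.add_mem hx (M.smul_mem (-s) hcx))
      rw [map_add, map_smul, rho_invol_apply ρ hc, smul_add, smul_smul, hs', one_smul, add_comm]
    have e : (2 : R) • x = (x + s • ρ c x) + (x + (-s) • ρ c x) := by
      rw [two_smul, neg_smul]; abel
    rw [e]
    refine Submodule.add_mem _ ?_ ?_
    · exact Submodule.span_mono (by simp) hp
    · exact Submodule.span_mono (by simp) hm
  have hle : Module.finrank R M ≤ 2 := by
    let P : Submodule R Λ := Submodule.span R ((({u, w} : Finset Λ)) : Set Λ)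
    let f : M →ₗ[R] P := LinearMap.codRestrict P ((2 : R) • M.subtype) (fun x => hmem2 x x.2)
    have hf : Function.Injective f := by
      intro x y hxy
      have h : (2 : R) • (x : Λ) = (2 : R) • (y : Λ) := congrArg (fun z : P => (z : Λ)) hxy
      have : (2 : R) • ((x : Λ) - y) = 0 := by rw [smul_sub, h, sub_self]
      exact Subtype.ext (sub_eq_zero.mp (h2 _ this))
    calc Module.finrank R M ≤ Module.finrank R P := LinearMap.finrank_le_finrank_of_injective hf
      _ ≤ ({u, w} : Finset Λ).card := finrank_span_finset_le_card _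
      _ ≤ 2 := Finset.card_le_two
  have hfin : Module.finrank R M = 2 := le_antisymm hle hge
  have : Nontrivial M := ⟨⟨⟨u, huM⟩, 0, fun h => hu0 (congrArg Subtype.val h)⟩⟩
  obtain ⟨ϖ, hϖ⟩ := IsDiscreteValuationRing.exists_irreducible R
  refine ⟨M, inferInstance, inferInstance, inferInstance, inferInstance, restrictRepR ρ M hMstab,
    hfin, ?_, ?_, ?_⟩
  · intro g
    apply charpoly_eq_of_quad hfin _ _ _ (quadRel_restrict hQ M hMstab g) _ h2R
    intro r σ hrσ
    -- apply to `u` and `w`
    have hu1 : r • ρ g u = σ • u := by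
      have := congrArg (fun F : Module.End R M => ((F ⟨u, huM⟩ : M) : Λ)) hrσ
      simpa using this
    have hw1 : r • ρ g w = σ • w := by
      have := congrArg (fun F : Module.End R M => ((F ⟨w, hwM⟩ : M) : Λ)) hrσ
      simpa using this
    have eu := hQ.sign_eigen hc htc h2 s hs g u hcu
    have ew := hQ.sign_eigen hc htc h2 (-s) hs' g w hcw
    have eu1 : r • (ρ g u + s • ρ c (ρ g u)) = σ • u + s • ρ c (σ • u) := by
      rw [smul_add, smul_comm r s, ← map_smul (ρ c), hu1]
    have eu' : (r * (t g + s * t (c * g))) • u = (2 * σ) • u := by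
      rw [mul_smul, ← eu, eu1, map_smul, hcu, smul_smul, smul_smul, ← add_smul]
      congr 1
      linear_combination σ * hs
    have ew1 : r • (ρ g w + (-s) • ρ c (ρ g w)) = σ • w + (-s) • ρ c (σ • w) := by
      rw [smul_add, smul_comm r (-s), ← map_smul (ρ c), hw1]
    have ew' : (r * (t g + -s * t (c * g))) • w = (2 * σ) • w := by
      rw [mul_smul, ← ew, ew1, map_smul, hcw, smul_smul, smul_smul, ← add_smul]
      congr 1
      linear_combination σ * hs
    have eu'' := smul_left_injective R hu0 eu'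
    have ew'' := smul_left_injective R hw0 ew'

    have h4 : (2 : R) * (r * t g) = 2 * (2 * σ) := by linear_combination eu'' + ew''
    exact mul_left_cancel₀ h2R h4
  · intro n g hg hεg y
    obtain ⟨z, hz⟩ := (mem_maximalIdeal_pow_smul_top hϖ n _).mp (hg (y : Λ))
    have hzM : z ∈ M := by
      apply hMsat (ϖ ^ n) z (pow_ne_zero _ hϖ.ne_zero)
      rw [← hz]
      exact M.sub_mem (hMstab g _ y.2) y.2
    rw [mem_maximalIdeal_pow_smul_top hϖ]
    refine ⟨⟨z, hzM⟩, ?_⟩
    apply Subtype.ext
    simpa using hz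
  · intro g hg _
    ext x
    simp [hg]

end Plane

end Fermat.Agent.S30
end MergeWrap_S30_WilesPlane
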